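import Mathlib

/-!
# Row LT, T7.L2.1.H2a.A.0.D.5 `PushTelC981` (spare by helper942): the ABSTRACT CORE — OFF-MAIN

MATHLIB ONLY.

* `block_elim942`: a finite sum of pure tensors which vanishes at every point (of a product of
  sets) is killed by every product of BLOCK FUNCTIONALS (functionals on the blocks of slots with
  the property (★): they kill the finite linear combinations of block tensors which vanish on
  the set of the block).
* `pushAbs942` (the push-forward of finitely supported functions on `ℤ²` over a finite fibre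
  with weights; `B981.pushFin981` is an instance): property (★) on the fibre
  (`pushAbs_star942`), translation (`pushAbs_shift942`).
* `convR942` (the iterated convolution on `ℝ²`; `B981.convR981` is the same recursion):
  continuity and compact support (`convR_cont942`), property (★) (`convR_star942`),
  translation (`convR_shift942`).
-/

set_option autoImplicit false

open MeasureTheory
open scoped Convolution

noncomputable section

namespace Fermat.Agent.LT.T7.H942

/-! ## 1. Block elimination -/

theorem block_elim942 {S : Type} [Fintype S] [DecidableEq S] {κ : Type} (𝒦 : Finset κ)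
    (Y : S → Type) [∀ s, Nonempty (Y s)] (Z : ∀ s, Set (Y s)) (g : ∀ s, κ → Y s → ℂ)
    (l : S → κ → ℂ)
    (hstar : ∀ (s : S) (c : κ → ℂ), (∀ y ∈ Z s, ∑ k ∈ 𝒦, c k * g s k y = 0) →
      ∑ k ∈ 𝒦, c k * l s k = 0)
    (c : κ → ℂ)
    (h : ∀ y : ∀ s, Y s, (∀ s, y s ∈ Z s) → ∑ k ∈ 𝒦, c k * ∏ s, g s k (y s) = 0) :
    ∑ k ∈ 𝒦, c k * ∏ s, l s k = 0 := by
  classical
  have key : ∀ B : Finset S, ∀ y : ∀ s, Y s, (∀ s, s ∉ B → y s ∈ Z s) →
      ∑ k ∈ 𝒦, c k * ((∏ s ∈ B, l s k) * ∏ s ∈ Bᶜ, g s k (y s)) = 0 := by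
    intro B
    induction B using Finset.induction_on with
    | empty =>
      intro y hy
      have h0 := h y (fun s => hy s (Finset.notMem_empty s))
      refine Eq.trans (Finset.sum_congr rfl fun k _ => ?_) h0
      rw [Finset.prod_empty, one_mul, Finset.compl_empty]
    | insert s₀ B hs₀ ih =>
      intro y hy
      have hmem : s₀ ∈ Bᶜ := Finset.mem_compl.2 hs₀
      have hcompl : (insert s₀ B)ᶜ = Bᶜ.erase s₀ := by
        ext s
        simp only [Finset.mem_compl, Finset.mem_insert, Finset.mem_erase, not_or]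
      have hc := hstar s₀
        (fun k => c k * ((∏ s ∈ B, l s k) * ∏ s ∈ (insert s₀ B)ᶜ, g s k (y s))) (by
          intro y' hy'
          have hup := ih (Function.update y s₀ y') (fun s hs => by
            by_cases hss : s = s₀
            · subst hss
              rw [Function.update_self]
              exact hy'
            · rw [Function.update_of_ne hss]
              exact hy s (by
                rw [Finset.mem_insert, not_or]
                exact ⟨hss, hs⟩))
          refine Eq.trans (Finset.sum_congr rfl fun k _ => ?_) hup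
          rw [← Finset.mul_prod_erase _ _ hmem, Function.update_self, hcompl]
          have e : ∏ s ∈ Bᶜ.erase s₀, g s k (Function.update y s₀ y' s)
              = ∏ s ∈ Bᶜ.erase s₀, g s k (y s) :=
            Finset.prod_congr rfl fun s hs => by
              rw [Function.update_of_ne (Finset.ne_of_mem_erase hs)]
          rw [e]
          ring)
      refine Eq.trans (Finset.sum_congr rfl fun k _ => ?_) hc
      rw [Finset.prod_insert hs₀]
      ring
  obtain ⟨y₀⟩ : Nonempty (∀ s, Y s) := inferInstance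
  have h1 := key Finset.univ y₀ (fun s hs => absurd (Finset.mem_univ s) hs)
  refine Eq.trans (Finset.sum_congr rfl fun k _ => ?_) h1
  rw [Finset.compl_univ, Finset.prod_empty, mul_one]

/-! ## 2. The push-forward at the finite places -/

section Push

variable {ι : Type} [Fintype ι]

/-- The push-forward of the family `a` over the fibre `ι` with the weights `f`. -/
def pushAbs942 (f : ι → ℕ) (a : ι → ℤ × ℤ → ℂ) (M : ℤ × ℤ) : ℂ :=
  ∑ᶠ mm : ι → ℤ × ℤ, if ∑ w, (f w : ℤ) • mm w = M then ∏ w, a w (mm w) else 0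

theorem pushAbs_supp942 (f : ι → ℕ) (a : ι → ℤ × ℤ → ℂ)
    (ha : ∀ w, (Function.support (a w)).Finite) (M : ℤ × ℤ) :
    (Function.support fun mm : ι → ℤ × ℤ =>
      if ∑ w, (f w : ℤ) • mm w = M then ∏ w, a w (mm w) else 0).Finite := by
  refine (Set.Finite.pi' ha).subset fun mm hmm w => ?_
  rw [Function.mem_support] at hmm ⊢
  intro h0
  apply hmm
  split_ifs
  · exact Finset.prod_eq_zero (Finset.mem_univ w) h0
  · rfl

/-- If the push-forward does not vanish, a point of the fibre lies in the supports. -/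
theorem exists_of_pushAbs_ne942 (f : ι → ℕ) (a : ι → ℤ × ℤ → ℂ) (M : ℤ × ℤ)
    (h : pushAbs942 f a M ≠ 0) :
    ∃ mm : ι → ℤ × ℤ, ∑ w, (f w : ℤ) • mm w = M ∧ ∀ w, a w (mm w) ≠ 0 := by
  by_contra hcon
  apply h
  unfold pushAbs942
  have h0 : ∀ mm : ι → ℤ × ℤ,
      (if ∑ w, (f w : ℤ) • mm w = M then ∏ w, a w (mm w) else 0) = 0 := by
    intro mm
    split_ifs with hM
    · by_contra hne
      apply hcon
      refine ⟨mm, hM, fun w hw => hne ?_⟩
      exact Finset.prod_eq_zero (Finset.mem_univ w) hw
    · rfl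
  rw [finsum_congr h0, finsum_zero]

/-- **Property (★) of the push-forward**, on the fibre. -/
theorem pushAbs_star942 (f : ι → ℕ) {κ : Type} (𝒦 : Finset κ) (a : κ → ι → ℤ × ℤ → ℂ)
    (ha : ∀ k w, (Function.support (a k w)).Finite) (M : ℤ × ℤ) (c : κ → ℂ)
    (h : ∀ mm : ι → ℤ × ℤ, ∑ w, (f w : ℤ) • mm w = M →
      ∑ k ∈ 𝒦, c k * ∏ w, a k w (mm w) = 0) :
    ∑ k ∈ 𝒦, c k * pushAbs942 f (a k) M = 0 := by
  have e1 : ∀ k ∈ 𝒦, c k * pushAbs942 f (a k) M
      = ∑ᶠ mm : ι → ℤ × ℤ,
          c k * (if ∑ w, (f w : ℤ) • mm w = M then ∏ w, a k w (mm w) else 0) :=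
    fun k _ => mul_finsum _ _
  rw [Finset.sum_congr rfl e1, ← finsum_sum_comm]
  · have h0 : ∀ mm : ι → ℤ × ℤ, ∑ k ∈ 𝒦,
        c k * (if ∑ w, (f w : ℤ) • mm w = M then ∏ w, a k w (mm w) else 0) = 0 := by
      intro mm
      by_cases hM : ∑ w, (f w : ℤ) • mm w = M
      · simp only [hM, if_true]
        exact h mm hM
      · simp only [hM, if_false, mul_zero, Finset.sum_const_zero]
    rw [finsum_congr h0, finsum_zero]
  · intro k _
    refine (pushAbs_supp942 f (a k) (ha k) M).subset fun mm hmm => ?_
    rw [Function.mem_support] at hmm ⊢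
    intro h0
    apply hmm
    rw [h0, mul_zero]

/-- **Translation of the push-forward.** -/
theorem pushAbs_shift942 (f : ι → ℕ) (a : ι → ℤ × ℤ → ℂ) (d : ι → ℤ × ℤ) (M : ℤ × ℤ) :
    pushAbs942 f (fun w m => a w (m + d w)) M
      = pushAbs942 f a (M + ∑ w, (f w : ℤ) • d w) := by
  unfold pushAbs942
  rw [← finsum_comp_equiv (Equiv.addRight d)
    (f := fun mm' : ι → ℤ × ℤ => if ∑ w, (f w : ℤ) • mm' w = M + ∑ w, (f w : ℤ) • d w
      then ∏ w, a w (mm' w) else 0)]
  refine finsum_congr fun mm => ?_
  show (if ∑ w, (f w : ℤ) • mm w = M then ∏ w, a w (mm w + d w) else 0)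
    = if ∑ w, (f w : ℤ) • (mm w + d w) = M + ∑ w, (f w : ℤ) • d w
      then ∏ w, a w (mm w + d w) else 0
  have e : ∑ w, (f w : ℤ) • (mm w + d w)
      = ∑ w, (f w : ℤ) • mm w + ∑ w, (f w : ℤ) • d w := by
    rw [← Finset.sum_add_distrib]
    exact Finset.sum_congr rfl fun w _ => smul_add _ _ _
  rw [e]
  by_cases hM : ∑ w, (f w : ℤ) • mm w = M
  · rw [if_pos hM, if_pos (by rw [hM])]
  · rw [if_neg hM, if_neg (fun h' => hM (add_right_cancel h'))]

end Push

/-! ## 3. The iterated convolution at the infinite places -/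

/-- Iterated convolution on `ℝ²` (left nested): the recursion of `B981.convR981`. -/
def convR942 (β : ℕ → ℝ × ℝ → ℂ) : ℕ → ℝ × ℝ → ℂ
  | 0 => β 0
  | (j + 1) => fun X => ∫ t : ℝ × ℝ, convR942 β j t * β (j + 1) (X - t)

theorem convR_zero942 (β : ℕ → ℝ × ℝ → ℂ) : convR942 β 0 = β 0 := rfl

theorem convR_succ942 (β : ℕ → ℝ × ℝ → ℂ) (j : ℕ) (X : ℝ × ℝ) :
    convR942 β (j + 1) X = ∫ t : ℝ × ℝ, convR942 β j t * β (j + 1) (X - t) := rfl

theorem convR_cont942 (β : ℕ → ℝ × ℝ → ℂ) (n : ℕ) (hc : ∀ j ≤ n, Continuous (β j))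
    (hs : ∀ j ≤ n, HasCompactSupport (β j)) :
    Continuous (convR942 β n) ∧ HasCompactSupport (convR942 β n) := by
  induction n with
  | zero => exact ⟨hc 0 le_rfl, hs 0 le_rfl⟩
  | succ n ih =>
    obtain ⟨h1, h2⟩ := ih (fun j hj => hc j (Nat.le_succ_of_le hj))
      (fun j hj => hs j (Nat.le_succ_of_le hj))
    have e : convR942 β (n + 1)
        = (convR942 β n) ⋆[ContinuousLinearMap.mul ℂ ℂ, volume] (β (n + 1)) := by
      funext X
      rw [convolution_mul, convR_succ942]
    rw [e]
    exact ⟨(hs (n + 1) le_rfl).continuous_convolution_right _ h1.locallyIntegrable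
      (hc (n + 1) le_rfl), h2.convolution _ (hs (n + 1) le_rfl)⟩

/-- **Property (★) of the iterated convolution.** -/
theorem convR_star942 {κ : Type} (𝒦 : Finset κ) (b : κ → ℕ → ℝ × ℝ → ℂ) (n : ℕ)
    (hc : ∀ k, ∀ j ≤ n, Continuous (b k j)) (hs : ∀ k, ∀ j ≤ n, HasCompactSupport (b k j))
    (c : κ → ℂ)
    (h : ∀ y : ℕ → ℝ × ℝ, ∑ k ∈ 𝒦, c k * ∏ j ∈ Finset.range (n + 1), b k j (y j) = 0)
    (X : ℝ × ℝ) :
    ∑ k ∈ 𝒦, c k * convR942 (b k) n X = 0 := by
  induction n generalizing c X with
  | zero =>
    have h0 := h (fun _ => X)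
    refine Eq.trans (Finset.sum_congr rfl fun k _ => ?_) h0
    rw [Finset.prod_range_one, convR_zero942]
  | succ n ih =>
    have hint : ∀ k, Integrable (fun t => convR942 (b k) n t * b k (n + 1) (X - t)) := by
      intro k
      obtain ⟨h1, h2⟩ := convR_cont942 (b k) n (fun j hj => hc k j (Nat.le_succ_of_le hj))
        (fun j hj => hs k j (Nat.le_succ_of_le hj))
      have hcont : Continuous (fun t => convR942 (b k) n t * b k (n + 1) (X - t)) :=
        h1.mul ((hc k (n + 1) le_rfl).comp (continuous_const.sub continuous_id))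
      exact hcont.integrable_of_hasCompactSupport h2.mul_right
    have e : ∑ k ∈ 𝒦, c k * convR942 (b k) (n + 1) X
        = ∫ t, ∑ k ∈ 𝒦, c k * (convR942 (b k) n t * b k (n + 1) (X - t)) := by
      rw [integral_finsetSum _ fun k _ => (hint k).const_mul (c k)]
      refine Finset.sum_congr rfl fun k _ => ?_
      rw [integral_const_mul, convR_succ942]
    rw [e]
    have hz : ∀ t, ∑ k ∈ 𝒦, c k * (convR942 (b k) n t * b k (n + 1) (X - t)) = 0 := by
      intro t
      have h1 := ih (fun k j hj => hc k j (Nat.le_succ_of_le hj))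
        (fun k j hj => hs k j (Nat.le_succ_of_le hj)) (fun k => c k * b k (n + 1) (X - t))
        (by
          intro y
          have h2 := h (Function.update y (n + 1) (X - t))
          refine Eq.trans (Finset.sum_congr rfl fun k _ => ?_) h2
          rw [Finset.prod_range_succ _ (n + 1), Function.update_self]
          have e3 : ∏ j ∈ Finset.range (n + 1), b k j (Function.update y (n + 1) (X - t) j)
              = ∏ j ∈ Finset.range (n + 1), b k j (y j) :=
            Finset.prod_congr rfl fun j hj => by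
              rw [Function.update_of_ne (by
                have := Finset.mem_range.1 hj
                omega)]
          rw [e3]
          ring) t
      refine Eq.trans (Finset.sum_congr rfl fun k _ => ?_) h1
      ring
    rw [integral_congr_ae (Filter.Eventually.of_forall hz), integral_zero]

/-- **Translation of the iterated convolution.** -/
theorem convR_shift942 (β : ℕ → ℝ × ℝ → ℂ) (a : ℕ → ℝ × ℝ) (n : ℕ) (X : ℝ × ℝ) :
    convR942 (fun j x => β j (x + a j)) n X
      = convR942 β n (X + ∑ j ∈ Finset.range (n + 1), a j) := by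
  induction n generalizing X with
  | zero =>
    rw [convR_zero942, convR_zero942, Finset.sum_range_one]
  | succ n ih =>
    rw [convR_succ942, convR_succ942,
      ← integral_add_right_eq_self (fun t => convR942 β n t
        * β (n + 1) (X + ∑ j ∈ Finset.range (n + 1 + 1), a j - t))
        (∑ j ∈ Finset.range (n + 1), a j)]
    refine integral_congr_ae (Filter.Eventually.of_forall fun t => ?_)
    show convR942 (fun j x => β j (x + a j)) n t * β (n + 1) (X - t + a (n + 1))
      = convR942 β n (t + ∑ j ∈ Finset.range (n + 1), a j)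
        * β (n + 1) (X + ∑ j ∈ Finset.range (n + 1 + 1), a j
          - (t + ∑ j ∈ Finset.range (n + 1), a j))
    rw [ih, Finset.sum_range_succ _ (n + 1)]
    congr 2
    abel

end Fermat.Agent.LT.T7.H942

end
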