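import Mathlib
import Fermat.Agent.LT.T7.B981.PairDatSpec
import Fermat.Agent.LT.T7.H942.PushTelCore

/-!
# Row LT, T7.L2.1.H2a.A.0.D.5 `PushTelC981` (spare by helper942): places and bridges — OFF-MAIN

* the place under a finite place, the fibres `B981.fib981` partition `P'` (`prod_fib942`);
* a complex place of `K` has exactly `[K' : K]` places over it (no Galois hypothesis), the
  enumerations of `B981.IsEnum981` exist and exhaust the fibre (`exists_enum942`,
  `prod_enum942`);
* bridges `B981.pushFin981 = pushAbs942`, `B981.convR981 = convR942` (definitional unfolding,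
  no equation lemma of the Spec is realised).
-/

set_option autoImplicit false
set_option linter.unusedSectionVars false

open IsDedekindDomain NumberField MeasureTheory

noncomputable section

namespace Fermat.Agent.LT.T7.H942

open Fermat.Agent.LT.H556 Fermat.Agent.LT.H556.A0 Fermat.Agent.LT.T7

variable {K K' : Type} [Field K] [NumberField K] [Field K'] [NumberField K'] [Algebra K K']

/-! ## 1. Finite places -/

/-- The place of `K` under a place of `K'`. -/
def underP942 (w : HeightOneSpectrum (𝓞 K')) : HeightOneSpectrum (𝓞 K) where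
  asIdeal := Ideal.comap (algebraMap (𝓞 K) (𝓞 K')) w.asIdeal
  isPrime := Ideal.comap_isPrime _ _
  ne_bot := Ideal.IsIntegral.comap_ne_bot (𝓞 K) w.ne_bot

theorem placeOver_underP942 (w : HeightOneSpectrum (𝓞 K')) :
    PlaceOver K K' (underP942 (K := K) w) w := by
  intro x y hxy
  have hy : y = algebraMap (𝓞 K) (𝓞 K') x := by
    apply RingOfIntegers.ext
    exact hxy
  rw [hy]
  exact Ideal.mem_comap

theorem eq_underP942 {v : HeightOneSpectrum (𝓞 K)} {w : HeightOneSpectrum (𝓞 K')}
    (h : PlaceOver K K' v w) : v = underP942 (K := K) w := by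
  apply HeightOneSpectrum.ext
  ext x
  rw [show (underP942 (K := K) w).asIdeal = Ideal.comap (algebraMap (𝓞 K) (𝓞 K')) w.asIdeal
    from rfl, Ideal.mem_comap]
  exact h x _ rfl

theorem mem_fib942 (P' : Finset (HeightOneSpectrum (𝓞 K'))) (v : HeightOneSpectrum (𝓞 K))
    (w : HeightOneSpectrum (𝓞 K')) :
    w ∈ B981.fib981 (K := K) P' v ↔ w ∈ P' ∧ PlaceOver K K' v w := by
  classical
  exact Finset.mem_filter

/-- The fibres partition `P'`. -/
theorem prod_fib942 (P' : Finset (HeightOneSpectrum (𝓞 K')))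
    (P : Finset (HeightOneSpectrum (𝓞 K)))
    (hP : ∀ v : HeightOneSpectrum (𝓞 K), v ∈ P ↔ ∃ w ∈ P', PlaceOver K K' v w)
    (G : HeightOneSpectrum (𝓞 K') → ℂ) :
    ∏ w : ↥P', G w.1 = ∏ v : ↥P, ∏ w : ↥(B981.fib981 (K := K) P' v.1), G w.1 := by
  classical
  calc ∏ w : ↥P', G w.1 = ∏ w ∈ P', G w := Finset.prod_coe_sort P' G
    _ = ∏ v ∈ P, ∏ w ∈ P'.filter (fun w => underP942 (K := K) w = v), G w :=
        (Finset.prod_fiberwise_of_maps_to (s := P') (t := P) (g := underP942 (K := K))
          (fun w hw => (hP _).2 ⟨w, hw, placeOver_underP942 w⟩) G).symm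
    _ = ∏ v ∈ P, ∏ w ∈ B981.fib981 (K := K) P' v, G w := by
        refine Finset.prod_congr rfl fun v _ => Finset.prod_congr ?_ fun _ _ => rfl
        ext w
        rw [Finset.mem_filter, mem_fib942]
        constructor
        · rintro ⟨h1, h2⟩
          exact ⟨h1, h2 ▸ placeOver_underP942 w⟩
        · rintro ⟨h1, h2⟩
          exact ⟨h1, (eq_underP942 h2).symm⟩
    _ = ∏ v ∈ P, ∏ w : ↥(B981.fib981 (K := K) P' v), G w.1 :=
        Finset.prod_congr rfl fun v _ =>
          (Finset.prod_coe_sort (B981.fib981 (K := K) P' v) G).symm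
    _ = ∏ v : ↥P, ∏ w : ↥(B981.fib981 (K := K) P' v.1), G w.1 :=
        (Finset.prod_coe_sort P
          (fun v => ∏ w : ↥(B981.fib981 (K := K) P' v), G w.1)).symm

/-! ## 2. Infinite places -/

open Classical in
/-- The sum of the multiplicities over the fibre of an infinite place. -/
theorem sum_mult_fib942 (v : InfinitePlace K) :
    ∑ w' ∈ Finset.univ.filter (fun w' : InfinitePlace K' => w'.comap (algebraMap K K') = v),
        w'.mult = v.mult * Module.finrank K K' := by
  have h := NumberField.InfinitePlace.sum_inertiaDeg_eq_finrank K K' v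
  rw [← h, Finset.mul_sum]
  have hset : (NumberField.InfinitePlace.placesOver K' v).toFinset
      = Finset.univ.filter (fun w' : InfinitePlace K' => w'.comap (algebraMap K K') = v) := by
    ext w'
    simp only [Set.mem_toFinset, Finset.mem_filter, Finset.mem_univ, true_and]
    constructor
    · intro hw
      have : w'.LiesOver v := hw
      exact NumberField.InfinitePlace.LiesOver.comap_eq w' v
    · intro hw
      subst hw
      exact (⟨rfl⟩ : w'.LiesOver (w'.comap (algebraMap K K')))
  rw [hset]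
  refine Finset.sum_congr rfl fun w' hw' => ?_
  have hw : w'.comap (algebraMap K K') = v := (Finset.mem_filter.mp hw').2
  subst hw
  have : w'.LiesOver (w'.comap (algebraMap K K')) := ⟨rfl⟩
  rw [NumberField.InfinitePlace.inertiaDeg_eq_finrank,
    NumberField.InfinitePlace.mult_mul_finrank]

open Classical in
/-- A complex place of `K` has exactly `[K' : K]` places of `K'` over it. -/
theorem card_fib_of_isComplex942 {v : InfinitePlace K} (hv : v.IsComplex) :
    Fintype.card {w : InfinitePlace K' // w.comap (algebraMap K K') = v}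
      = Module.finrank K K' := by
  have h := sum_mult_fib942 (K' := K') v
  have h2 : ∀ w' ∈ Finset.univ.filter
      (fun w' : InfinitePlace K' => w'.comap (algebraMap K K') = v), w'.mult = 2 := by
    intro w' hw'
    have hw : w'.comap (algebraMap K K') = v := (Finset.mem_filter.mp hw').2
    apply NumberField.InfinitePlace.IsComplex.mult_eq_two
    apply NumberField.InfinitePlace.IsComplex.of_comap (algebraMap K K')
    rw [hw]
    exact hv
  rw [Finset.sum_congr rfl h2, Finset.sum_const, hv.mult_eq_two, smul_eq_mul] at h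
  have h3 : (Finset.univ.filter
      (fun w' : InfinitePlace K' => w'.comap (algebraMap K K') = v)).card
      = Module.finrank K K' := by omega
  rw [← h3, Fintype.card_subtype]

/-- The enumerations of the places over a complex place exist and exhaust the fibre. -/
theorem exists_enum942 (ℓ : ℕ) (hcyc : IsCycExt K K' ℓ) (htc : TotCplx K)
    (v : InfinitePlace K) :
    ∃ wen : ℕ → InfinitePlace K', B981.IsEnum981 ℓ v wen ∧
      ∀ w : InfinitePlace K', w.comap (algebraMap K K') = v → ∃ n : ℕ, n < ℓ ∧ wen n = w := by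
  classical
  have hcard : Fintype.card {w : InfinitePlace K' // w.comap (algebraMap K K') = v} = ℓ := by
    rw [card_fib_of_isComplex942 (htc v), hcyc.degree]
  have hpos : 0 < ℓ := hcyc.prime.pos
  let E := Fintype.equivFinOfCardEq hcard
  refine ⟨fun n => (E.symm ⟨n % ℓ, Nat.mod_lt n hpos⟩).1,
    ⟨fun n => (E.symm ⟨n % ℓ, Nat.mod_lt n hpos⟩).2, ?_⟩, ?_⟩
  · intro j j' hj hj' h
    have h1 : E.symm ⟨j % ℓ, Nat.mod_lt j hpos⟩ = E.symm ⟨j' % ℓ, Nat.mod_lt j' hpos⟩ :=
      Subtype.ext h
    have h2 := E.symm.injective h1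
    have h3 : j % ℓ = j' % ℓ := congrArg Fin.val h2
    rwa [Nat.mod_eq_of_lt hj, Nat.mod_eq_of_lt hj'] at h3
  · intro w hw
    refine ⟨(E ⟨w, hw⟩).1, (E ⟨w, hw⟩).2, ?_⟩
    have e : (⟨(E ⟨w, hw⟩).1 % ℓ, Nat.mod_lt _ hpos⟩ : Fin ℓ) = E ⟨w, hw⟩ :=
      Fin.ext (Nat.mod_eq_of_lt (E ⟨w, hw⟩).2)
    show (E.symm ⟨(E ⟨w, hw⟩).1 % ℓ, Nat.mod_lt _ hpos⟩).1 = w
    rw [e, Equiv.symm_apply_apply]

/-- The enumerations partition the infinite places of `K'`. -/
theorem prod_enum942 (ℓ : ℕ) (wen : InfinitePlace K → ℕ → InfinitePlace K')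
    (h1 : ∀ v, B981.IsEnum981 ℓ v (wen v))
    (h2 : ∀ (v : InfinitePlace K) (w : InfinitePlace K'), w.comap (algebraMap K K') = v →
      ∃ n : ℕ, n < ℓ ∧ wen v n = w)
    (G : InfinitePlace K' → ℂ) :
    ∏ w : InfinitePlace K', G w
      = ∏ v : InfinitePlace K, ∏ n ∈ Finset.range ℓ, G (wen v n) := by
  classical
  rw [← Finset.prod_fiberwise Finset.univ
    (fun w : InfinitePlace K' => w.comap (algebraMap K K')) G]
  refine Finset.prod_congr rfl fun v _ => ?_
  have hinj : Set.InjOn (wen v) (Finset.range ℓ : Set ℕ) := by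
    intro a ha b hb hab
    exact (h1 v).2 a b (Finset.mem_range.1 ha) (Finset.mem_range.1 hb) hab
  rw [← Finset.prod_image (s := Finset.range ℓ) (g := wen v) (f := G) hinj]
  refine Finset.prod_congr ?_ fun _ _ => rfl
  ext w
  rw [Finset.mem_filter, Finset.mem_image]
  constructor
  · rintro ⟨-, hw⟩
    obtain ⟨n, hn, hnw⟩ := h2 v w hw
    exact ⟨n, Finset.mem_range.2 hn, hnw⟩
  · rintro ⟨n, -, rfl⟩
    exact ⟨Finset.mem_univ _, (h1 v).1 n⟩

/-! ## 3. Bridges -/

theorem pushFin_eq942 (P' : Finset (HeightOneSpectrum (𝓞 K')))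
    (A' : HeightOneSpectrum (𝓞 K') → ℤ × ℤ → ℂ) (v : HeightOneSpectrum (𝓞 K)) (M : ℤ × ℤ) :
    B981.pushFin981 (K := K) P' A' v M
      = pushAbs942 (fun w : ↥(B981.fib981 (K := K) P' v) => B981.resDeg981 v w.1)
          (fun w : ↥(B981.fib981 (K := K) P' v) => A' w.1) M := by
  classical
  show (∑ᶠ mm : ↥(B981.fib981 (K := K) P' v) → ℤ × ℤ, _) = ∑ᶠ mm : _ → ℤ × ℤ, _
  refine finsum_congr fun mm => ?_
  by_cases hM : ∑ w, (B981.resDeg981 v w.1 : ℤ) • mm w = M
  · rw [if_pos hM]
  · rw [if_neg hM]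

theorem convR_eq942 (β : ℕ → ℝ × ℝ → ℂ) (n : ℕ) : B981.convR981 β n = convR942 β n := by
  induction n with
  | zero => rfl
  | succ n ih =>
    funext X
    show (∫ t : ℝ × ℝ, B981.convR981 β n t * β (n + 1) (X - t))
      = ∫ t : ℝ × ℝ, convR942 β n t * β (n + 1) (X - t)
    rw [ih]

end Fermat.Agent.LT.T7.H942

end
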