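import Mathlib
import Fermat.Agent.LT.T7.B981.PairDatSpec
import Fermat.Agent.LT.T7.H942.PushTelCore
import Fermat.Agent.LT.T7.H942.PushTelAux

/-!
# Row LT, T7.L2.1.H2a.A.0.D.5 `PushTelC981` (spare by helper942): CLOSED — OFF-MAIN

    pushTelC942 (K K') : B981.PushTelC981 K K'      (VERBATIM, unconditional)

The push-forward under the norm of a telescoping sum of pure tensors on the coordinate group
telescopes.

Proof.  `Δ = (M, X)` fixed.  The translate by `j c₀` of the pushed pure tensor is the pushed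
pure tensor of the components translated by `j c₀'` (`pushAbs_shift942`, `convR_shift942`; the
hypotheses on `e` and `α`), evaluated at `Δ`.  Only finitely many `j` contribute, downstairs at
`Δ` and upstairs at all the points over `M` (the supports at the places over ONE `v₀ ∈ P`).
The value at `Δ` of the pushed pure tensor is a product of BLOCK FUNCTIONALS (push-forward over
the fibre of `v ∈ P`, iterated convolution over the fibre of an infinite place) of the
components, with the property (★) of `PushTelCore.lean`; the fibres partition `P'` and the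
infinite places of `K'` (`prod_fib942`, `prod_enum942`); `block_elim942` twice.  No Fubini on
product spaces.
-/

set_option autoImplicit false
set_option linter.unusedSectionVars false

open IsDedekindDomain NumberField MeasureTheory

noncomputable section

namespace Fermat.Agent.LT.T7.H942

open Fermat.Agent.LT.H556 Fermat.Agent.LT.H556.A0 Fermat.Agent.LT.T7

variable {K K' : Type} [Field K] [NumberField K] [Field K'] [NumberField K'] [Algebra K K']

/-- The value of a pure tensor at a translate. -/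
theorem pureCoordM_shift942 (F : Type) [Field F] [NumberField F]
    (P : Finset (HeightOneSpectrum (𝓞 F))) (e : HeightOneSpectrum (𝓞 F) → ℕ) (α : Fˣ)
    (A : HeightOneSpectrum (𝓞 F) → ℤ × ℤ → ℂ) (β : InfinitePlace F → ℝ × ℝ → ℂ)
    (Δ : T3.M.CoordM F P) (j : ℤ) :
    T3.M.pureCoordM F P A β (Δ + j • T3.M.coordTorM F P e α)
      = (∏ v : ↥P, A v.1 (Δ.1 v + j • (((e v.1 : ℕ) : ℤ), (0 : ℤ))))
        * ∏ w : InfinitePlace F, β w (Δ.2 w + j • (Real.log (w (α : F)), (0 : ℝ))) := rfl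

/-- The weighted sum of the shifts over a fibre. -/
theorem sum_shift942 (P' : Finset (HeightOneSpectrum (𝓞 K')))
    (e' : HeightOneSpectrum (𝓞 K') → ℕ) (e : HeightOneSpectrum (𝓞 K) → ℕ)
    (v : HeightOneSpectrum (𝓞 K))
    (he : e v = ∑ w ∈ B981.fib981 (K := K) P' v, B981.resDeg981 v w * e' w) (j : ℤ) :
    ∑ w : ↥(B981.fib981 (K := K) P' v),
        ((B981.resDeg981 v w.1 : ℕ) : ℤ) • (j • ((((e' w.1 : ℕ)) : ℤ), (0 : ℤ)))
      = j • ((((e v : ℕ)) : ℤ), (0 : ℤ)) := by
  have h2 : ((e v : ℕ) : ℤ) = ∑ w : ↥(B981.fib981 (K := K) P' v),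
      ((B981.resDeg981 v w.1 : ℕ) : ℤ) * ((e' w.1 : ℕ) : ℤ) := by
    rw [he, Finset.sum_coe_sort (B981.fib981 (K := K) P' v)
      (fun w => ((B981.resDeg981 v w : ℕ) : ℤ) * ((e' w : ℕ) : ℤ))]
    push_cast
    rfl
  refine Prod.ext ?_ ?_
  · simp only [Prod.fst_sum, Prod.smul_fst, smul_eq_mul]
    rw [h2, Finset.mul_sum]
    exact Finset.sum_congr rfl fun w _ => by ring
  · simp only [Prod.snd_sum, Prod.smul_snd, smul_eq_mul, mul_zero, Finset.sum_const_zero]

variable (K K')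

/-- **T7.L2.1.H2a.A.0.D.5 `PushTelC981`**, verbatim and unconditional. -/
theorem pushTelC942 : B981.PushTelC981 K K' := by
  classical
  intro ℓ hcyc _ htc P' P e' e α' α hP hPne hepos he hα cμ N A' β' A β hA' hβ' hA hβ hup Δ
  have hℓ : ℓ - 1 + 1 = ℓ := Nat.sub_add_cancel hcyc.prime.pos
  choose wen hwen1 hwen2 using fun v : InfinitePlace K => exists_enum942 (K' := K') ℓ hcyc htc v
  choose idx hidx using fun w : InfinitePlace K' => hwen2 (w.comap (algebraMap K K')) w rfl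
  -- the translated components
  obtain ⟨aF, haF⟩ : ∃ aF : Fin N × ℤ → HeightOneSpectrum (𝓞 K') → ℤ × ℤ → ℂ,
      aF = fun k w m => A' k.1 w (m + k.2 • (((e' w : ℕ) : ℤ), (0 : ℤ))) := ⟨_, rfl⟩
  obtain ⟨bF, hbF⟩ : ∃ bF : Fin N × ℤ → InfinitePlace K' → ℝ × ℝ → ℂ,
      bF = fun k w x => β' k.1 w (x + k.2 • (Real.log (w (α' : K')), (0 : ℝ))) := ⟨_, rfl⟩
  -- the block functionals
  obtain ⟨lfin, hlfin⟩ : ∃ lfin : ↥P → Fin N × ℤ → ℂ, lfin = fun v k =>
      pushAbs942 (fun w : ↥(B981.fib981 (K := K) P' v.1) => B981.resDeg981 v.1 w.1)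
        (fun w : ↥(B981.fib981 (K := K) P' v.1) => aF k w.1) (Δ.1 v) := ⟨_, rfl⟩
  obtain ⟨linf, hlinf⟩ : ∃ linf : InfinitePlace K → Fin N × ℤ → ℂ, linf = fun v k =>
      convR942 (fun n => bF k (wen v n)) (ℓ - 1) (Δ.2 v) := ⟨_, rfl⟩
  -- regularity of the translated components
  have haFsupp : ∀ k w, (Function.support (aF k w)).Finite := by
    intro k w
    rw [haF]
    have h0 : (Function.support (A' k.1 w)).Finite := (hA' k.1 w).1
    refine (h0.preimage (f := fun m : ℤ × ℤ => m + k.2 • (((e' w : ℕ) : ℤ), (0 : ℤ)))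
      (fun a _ b _ hab => add_right_cancel hab)).subset fun m hm => ?_
    exact hm
  have hbFc : ∀ k w, Continuous (bF k w) := by
    intro k w
    rw [hbF]
    exact ((hβ' k.1 w).1.continuous).comp (continuous_id.add continuous_const)
  have hbFs : ∀ k w, HasCompactSupport (bF k w) := by
    intro k w
    rw [hbF]
    exact ((hβ' k.1 w).2.1).comp_homeomorph
      (Homeomorph.addRight (k.2 • (Real.log (w (α' : K')), (0 : ℝ))))
  -- the terms downstairs
  have hdown : ∀ j : ℤ, ∑ i : Fin N,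
      T3.M.pureCoordM K P (A i) (β i) (Δ + j • T3.M.coordTorM K P e α)
        = ∑ i : Fin N, (∏ v : ↥P, lfin v (i, j))
            * ∏ v : InfinitePlace K, (cμ ^ (ℓ - 1) * linf v (i, j)) := by
    intro j
    refine Finset.sum_congr rfl fun i _ => ?_
    rw [pureCoordM_shift942]
    congr 1
    · refine Finset.prod_congr rfl fun v _ => ?_
      rw [hlfin, hA i v.1 v.2, pushFin_eq942, haF]
      rw [← sum_shift942 P' e' e v.1 (he v.1 v.2) j]
      exact (pushAbs_shift942 _ _ _ _).symm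
    · refine Finset.prod_congr rfl fun v _ => ?_
      rw [hlinf, hβ i v (wen v) (hwen1 v), hbF]
      show cμ ^ (ℓ - 1) * B981.convR981 (fun n => β' i (wen v n)) (ℓ - 1)
          (Δ.2 v + j • (Real.log (v (α : K)), (0 : ℝ))) = _
      rw [convR_eq942]
      have hs := convR_shift942 (fun n => β' i (wen v n))
        (fun n => j • (Real.log ((wen v n) (α' : K')), (0 : ℝ))) (ℓ - 1) (Δ.2 v)
      have hsum : ∑ n ∈ Finset.range (ℓ - 1 + 1), j • (Real.log ((wen v n) (α' : K')), (0 : ℝ))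
          = j • (Real.log (v (α : K)), (0 : ℝ)) := by
        rw [hℓ, hα v (wen v) (hwen1 v), ← Finset.smul_sum]
        congr 1
        refine Prod.ext ?_ ?_
        · simp only [Prod.fst_sum]
        · simp only [Prod.snd_sum, Finset.sum_const_zero]
      rw [hsum] at hs
      rw [← hs]
  -- the finite set of the contributing `j`
  obtain ⟨v₀, hv₀⟩ := hPne
  obtain ⟨J, hJ⟩ : ∃ J : Finset ℤ, ∀ (i : Fin N) (j : ℤ)
      (mm : ↥(B981.fib981 (K := K) P' v₀) → ℤ × ℤ),
      (∀ w, aF (i, j) w.1 (mm w) ≠ 0) →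
      ∑ w, ((B981.resDeg981 v₀ w.1 : ℕ) : ℤ) • mm w = Δ.1 ⟨v₀, hv₀⟩ → j ∈ J := by
    have hV : (⋃ i : Fin N, (fun mm : ↥(B981.fib981 (K := K) P' v₀) → ℤ × ℤ =>
        ∑ w, ((B981.resDeg981 v₀ w.1 : ℕ) : ℤ) • mm w) ''
          {mm | ∀ w, mm w ∈ Function.support (A' i w.1)}).Finite :=
      Set.finite_iUnion fun i => (Set.Finite.pi'
        fun w : ↥(B981.fib981 (K := K) P' v₀) => (hA' i w.1).1).image _
    have hinj : Set.InjOn (fun j : ℤ => Δ.1 ⟨v₀, hv₀⟩ + j • (((e v₀ : ℕ) : ℤ), (0 : ℤ)))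
        ((fun j : ℤ => Δ.1 ⟨v₀, hv₀⟩ + j • (((e v₀ : ℕ) : ℤ), (0 : ℤ))) ⁻¹'
          (⋃ i : Fin N, (fun mm : ↥(B981.fib981 (K := K) P' v₀) → ℤ × ℤ =>
            ∑ w, ((B981.resDeg981 v₀ w.1 : ℕ) : ℤ) • mm w) ''
              {mm | ∀ w, mm w ∈ Function.support (A' i w.1)})) := by
      intro a _ b _ hab
      have h1 : a • (((e v₀ : ℕ) : ℤ), (0 : ℤ)) = b • (((e v₀ : ℕ) : ℤ), (0 : ℤ)) :=
        add_left_cancel hab
      have h2 := congrArg Prod.fst h1
      simp only [Prod.smul_fst, smul_eq_mul] at h2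
      have h3 : ((e v₀ : ℕ) : ℤ) ≠ 0 := by
        have := hepos v₀ hv₀
        exact_mod_cast this.ne'
      exact mul_right_cancel₀ h3 h2
    refine ⟨(hV.preimage hinj).toFinset, fun i j mm hmm hsum => ?_⟩
    rw [Set.Finite.mem_toFinset, Set.mem_preimage, Set.mem_iUnion]
    refine ⟨i, fun w => mm w + j • (((e' w.1 : ℕ) : ℤ), (0 : ℤ)), fun w => ?_, ?_⟩
    · have := hmm w
      rw [haF] at this
      exact this
    · show ∑ w, ((B981.resDeg981 v₀ w.1 : ℕ) : ℤ) • (mm w + j • (((e' w.1 : ℕ) : ℤ), (0 : ℤ)))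
        = Δ.1 ⟨v₀, hv₀⟩ + j • (((e v₀ : ℕ) : ℤ), (0 : ℤ))
      rw [← hsum, ← sum_shift942 P' e' e v₀ (he v₀ hv₀) j, ← Finset.sum_add_distrib]
      exact Finset.sum_congr rfl fun w _ => smul_add _ _ _
  have hlfin0 : ∀ (i : Fin N) (j : ℤ), j ∉ J → lfin ⟨v₀, hv₀⟩ (i, j) = 0 := by
    intro i j hj
    by_contra hne
    rw [hlfin] at hne
    obtain ⟨mm, hmm1, hmm2⟩ := exists_of_pushAbs_ne942 _ _ _ hne
    exact hj (hJ i j mm hmm2 hmm1)
  -- the sum over the contributing indices vanishes upstairs on the fibre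
  have hupJ : ∀ (y : ∀ v : ↥P, ↥(B981.fib981 (K := K) P' v.1) → ℤ × ℤ)
      (x : InfinitePlace K' → ℝ × ℝ),
      (∀ v : ↥P, ∑ w, ((B981.resDeg981 v.1 w.1 : ℕ) : ℤ) • y v w = Δ.1 v) →
      ∑ k ∈ (Finset.univ : Finset (Fin N)) ×ˢ J, (∏ w : InfinitePlace K', bF k w (x w))
        * ∏ v : ↥P, ∏ w : ↥(B981.fib981 (K := K) P' v.1), aF k w.1 (y v w) = 0 := by
    intro y x hy
    have hPmem : ∀ w ∈ P', underP942 (K := K) w ∈ P := fun w hw =>
      (hP _).2 ⟨w, hw, placeOver_underP942 w⟩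
    have hfmem : ∀ w (hw : w ∈ P'), w ∈ B981.fib981 (K := K) P' (underP942 (K := K) w) :=
      fun w hw => (mem_fib942 P' _ w).2 ⟨hw, placeOver_underP942 w⟩
    obtain ⟨m', hm'⟩ : ∃ m' : HeightOneSpectrum (𝓞 K') → ℤ × ℤ, m' = fun w =>
        if h : w ∈ P' then y ⟨underP942 (K := K) w, hPmem w h⟩ ⟨w, hfmem w h⟩ else 0 :=
      ⟨_, rfl⟩
    have hkey : ∀ (v : ↥P) (w : ↥(B981.fib981 (K := K) P' v.1)), m' w.1 = y v w := by
      intro v w
      have hw := (mem_fib942 P' v.1 w.1).1 w.2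
      have hgen : ∀ (u : HeightOneSpectrum (𝓞 K)) (hu : u ∈ P)
          (hw' : w.1 ∈ B981.fib981 (K := K) P' u), u = v.1 → y ⟨u, hu⟩ ⟨w.1, hw'⟩ = y v w := by
        intro u hu hw' huv
        subst huv
        rfl
      rw [hm']
      show (if h : w.1 ∈ P' then y ⟨underP942 (K := K) w.1, hPmem w.1 h⟩ ⟨w.1, hfmem w.1 h⟩
        else 0) = y v w
      rw [dif_pos hw.1]
      exact hgen _ _ _ (eq_underP942 hw.2).symm
    have hterm : ∀ j : ℤ, ∑ i : Fin N, T3.M.pureCoordM K' P' (A' i) (β' i)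
        (((fun w : ↥P' => m' w.1), x) + j • T3.M.coordTorM K' P' e' α')
          = ∑ i : Fin N, (∏ w : InfinitePlace K', bF (i, j) w (x w))
              * ∏ v : ↥P, ∏ w : ↥(B981.fib981 (K := K) P' v.1), aF (i, j) w.1 (y v w) := by
      intro j
      refine Finset.sum_congr rfl fun i _ => ?_
      rw [pureCoordM_shift942, mul_comm]
      congr 1
      · rw [hbF]
      · have h1 := prod_fib942 P' P hP (fun w => aF (i, j) w (m' w))
        have h2 : ∏ w : ↥P', A' i w.1 (m' w.1 + j • (((e' w.1 : ℕ) : ℤ), (0 : ℤ)))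
            = ∏ w : ↥P', aF (i, j) w.1 (m' w.1) := by
          rw [haF]
        rw [h2, h1]
        refine Finset.prod_congr rfl fun v _ => Finset.prod_congr rfl fun w _ => ?_
        rw [hkey v w]
    have hzero : ∀ j ∉ J, ∑ i : Fin N, T3.M.pureCoordM K' P' (A' i) (β' i)
        (((fun w : ↥P' => m' w.1), x) + j • T3.M.coordTorM K' P' e' α') = 0 := by
      intro j hj
      rw [hterm j]
      refine Finset.sum_eq_zero fun i _ => ?_
      have h0 : ∏ v : ↥P, ∏ w : ↥(B981.fib981 (K := K) P' v.1), aF (i, j) w.1 (y v w) = 0 := by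
        refine Finset.prod_eq_zero (Finset.mem_univ (⟨v₀, hv₀⟩ : ↥P)) ?_
        by_contra hne
        apply hj
        refine hJ i j (y ⟨v₀, hv₀⟩) (fun w hw => hne ?_) (hy ⟨v₀, hv₀⟩)
        exact Finset.prod_eq_zero (Finset.mem_univ w) hw
      rw [h0, mul_zero]
    have hsumJ := (hasSum_sum_of_ne_finset_zero hzero).unique
      (hup ((fun w : ↥P' => m' w.1), x))
    rw [Finset.sum_product_right]
    rw [← hsumJ]
    exact Finset.sum_congr rfl fun j _ => (hterm j).symm
  -- elimination of the finite blocks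
  have hfinelim : ∀ x : InfinitePlace K' → ℝ × ℝ,
      ∑ k ∈ (Finset.univ : Finset (Fin N)) ×ˢ J, (∏ w : InfinitePlace K', bF k w (x w))
        * ∏ v : ↥P, lfin v k = 0 := by
    intro x
    refine block_elim942 ((Finset.univ : Finset (Fin N)) ×ˢ J)
      (fun v : ↥P => ↥(B981.fib981 (K := K) P' v.1) → ℤ × ℤ)
      (fun v => {mm | ∑ w, ((B981.resDeg981 v.1 w.1 : ℕ) : ℤ) • mm w = Δ.1 v})
      (fun v k mm => ∏ w : ↥(B981.fib981 (K := K) P' v.1), aF k w.1 (mm w))
      lfin (fun v c hc => ?_) (fun k => ∏ w : InfinitePlace K', bF k w (x w))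
      (fun y hy => ?_)
    · have h1 := pushAbs_star942
        (fun w : ↥(B981.fib981 (K := K) P' v.1) => B981.resDeg981 v.1 w.1)
        ((Finset.univ : Finset (Fin N)) ×ˢ J)
        (fun (k : Fin N × ℤ) (w : ↥(B981.fib981 (K := K) P' v.1)) => aF k w.1)
        (fun k w => haFsupp k w.1) (Δ.1 v) c (fun mm hmm => hc mm hmm)
      rw [hlfin]
      exact h1
    · exact hupJ y x hy
  -- elimination of the infinite blocks
  have hinfelim : ∑ k ∈ (Finset.univ : Finset (Fin N)) ×ˢ J, (∏ v : ↥P, lfin v k)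
      * ∏ v : InfinitePlace K, linf v k = 0 := by
    refine block_elim942 ((Finset.univ : Finset (Fin N)) ×ˢ J)
      (fun _ : InfinitePlace K => ℕ → ℝ × ℝ) (fun _ => Set.univ)
      (fun v k y => ∏ n ∈ Finset.range (ℓ - 1 + 1), bF k (wen v n) (y n))
      linf (fun v c hc => ?_) (fun k => ∏ v : ↥P, lfin v k) (fun y _ => ?_)
    · have h1 := convR_star942 ((Finset.univ : Finset (Fin N)) ×ˢ J)
        (fun (k : Fin N × ℤ) (n : ℕ) => bF k (wen v n)) (ℓ - 1)
        (fun k n _ => hbFc k (wen v n)) (fun k n _ => hbFs k (wen v n)) c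
        (fun y => hc y (Set.mem_univ y)) (Δ.2 v)
      rw [hlinf]
      exact h1
    · have h1 := hfinelim (fun w => y (w.comap (algebraMap K K')) (idx w))
      refine Eq.trans (Finset.sum_congr rfl fun k _ => ?_) h1
      rw [mul_comm]
      congr 1
      rw [prod_enum942 ℓ wen hwen1 hwen2
        (fun w => bF k w (y (w.comap (algebraMap K K')) (idx w)))]
      refine Finset.prod_congr rfl fun v _ => ?_
      rw [hℓ]
      refine Finset.prod_congr rfl fun n hn => ?_
      have hn' : n < ℓ := Finset.mem_range.1 hn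
      obtain ⟨hlt, heq⟩ := hidx (wen v n)
      have hv : (wen v n).comap (algebraMap K K') = v := (hwen1 v).1 n
      rw [hv] at heq ⊢
      have hidxn : idx (wen v n) = n := (hwen1 v).2 _ _ hlt hn' heq
      rw [hidxn]
  -- the sum downstairs
  have hzero : ∀ j ∉ J, ∑ i : Fin N,
      T3.M.pureCoordM K P (A i) (β i) (Δ + j • T3.M.coordTorM K P e α) = 0 := by
    intro j hj
    rw [hdown j]
    refine Finset.sum_eq_zero fun i _ => ?_
    rw [Finset.prod_eq_zero (Finset.mem_univ (⟨v₀, hv₀⟩ : ↥P)) (hlfin0 i j hj), zero_mul]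
  have hfinal : ∑ j ∈ J, ∑ i : Fin N,
      T3.M.pureCoordM K P (A i) (β i) (Δ + j • T3.M.coordTorM K P e α) = 0 := by
    have h1 : ∑ j ∈ J, ∑ i : Fin N,
        T3.M.pureCoordM K P (A i) (β i) (Δ + j • T3.M.coordTorM K P e α)
          = (cμ ^ (ℓ - 1)) ^ (Finset.univ : Finset (InfinitePlace K)).card
            * ∑ k ∈ (Finset.univ : Finset (Fin N)) ×ˢ J, (∏ v : ↥P, lfin v k)
              * ∏ v : InfinitePlace K, linf v k := by
      rw [Finset.sum_product_right, Finset.mul_sum]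
      refine Finset.sum_congr rfl fun j _ => ?_
      rw [hdown j, Finset.mul_sum]
      refine Finset.sum_congr rfl fun i _ => ?_
      rw [Finset.prod_mul_distrib, Finset.prod_const]
      ring
    rw [h1, hinfelim, mul_zero]
  have hs : HasSum (fun j : ℤ => ∑ i : Fin N,
      T3.M.pureCoordM K P (A i) (β i) (Δ + j • T3.M.coordTorM K P e α))
      (∑ j ∈ J, ∑ i : Fin N,
        T3.M.pureCoordM K P (A i) (β i) (Δ + j • T3.M.coordTorM K P e α)) :=
    hasSum_sum_of_ne_finset_zero hzero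
  rw [hfinal] at hs
  exact hs

end Fermat.Agent.LT.T7.H942

end
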